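import Fermat.Agent.Row25.AV.Divisible

/-!
# Enlarging the field of constants of curve data
-/

set_option autoImplicit false

noncomputable section

open AlgebraicCurve Module

namespace Fermat.Agent.Row27

universe u

variable {K : Type u} [Field K]

/-- The `K`-structure of an extension of `L`. -/
abbrev algOfTower (L L' : Type u) [Field L] [Algebra K L] [Field L'] [Algebra L L'] :
    Algebra K L' :=
  ((algebraMap L L').comp (algebraMap K L)).toAlgebra

lemma mulVec_baseChange (L : Type u) [Field L] [Algebra K L] {R : Type u} [Field R] [Algebra L R]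
    {p q r : ℕ} (sc : Fin p → Fin q → Fin r → K) (x : Fin p → R) (y : Fin q → R) :
    mulVec (fun i j l => algebraMap K L (sc i j l)) x y =
      letI := algOfTower (K := K) L R
      mulVec sc x y := by
  funext l
  simp only [mulVec, Algebra.smul_def]
  rfl

namespace CurveData

variable (C : CurveData K) (L : Type u) [Field L] [Algebra K L]

/-- The same curves, seen over `L`. -/
def baseChange : CurveData L where
  g := C.g
  dim := C.dim
  sc a b c i j l := algebraMap K L (C.sc a b c i j l)
  one b i := algebraMap K L (C.one b i)
  ev i b j := algebraMap K L (C.ev i b j)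
  curve L' _ _ _ :=
    letI := algOfTower (K := K) L L'
    C.curve L'
  rr L' _ _ _ :=
    letI := algOfTower (K := K) L L'
    C.rr L'
  rr_g L' _ _ _ :=
    letI := algOfTower (K := K) L L'
    C.rr_g L'
  canon L' _ _ _ :=
    letI := algOfTower (K := K) L L'
    C.canon L'
  riemannRoch L' _ _ _ :=
    letI := algOfTower (K := K) L L'
    C.riemannRoch L'
  inf L' _ _ _ :=
    letI := algOfTower (K := K) L L'
    C.inf L'
  realF L' _ _ _ b :=
    letI := algOfTower (K := K) L L'
    C.realF L' b
  realF_injective L' _ _ _ b :=
    letI := algOfTower (K := K) L L'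
    C.realF_injective L' b
  range_realF L' _ _ _ b :=
    letI := algOfTower (K := K) L L'
    C.range_realF L' b
  realF_mul L' _ _ _ a b c h x y := by
    let := algOfTower (K := K) L L'
    rw [mulVec_baseChange L]
    exact C.realF_mul L' a b c h x y
  realF_one L' _ _ _ b :=
    letI := algOfTower (K := K) L L'
    C.realF_one L' b
  pt L' _ _ _ :=
    letI := algOfTower (K := K) L L'
    C.pt L'
  pt_injective L' _ _ _ :=
    letI := algOfTower (K := K) L L'
    C.pt_injective L'
  pt_ne_inf L' _ _ _ :=
    letI := algOfTower (K := K) L L'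
    C.pt_ne_inf L'
  pt_ev L' _ _ _ i b x :=
    letI := algOfTower (K := K) L L'
    C.pt_ev L' i b x

/-- **Classes of degree zero are divisible over every algebraically closed extension.** -/
theorem exists_nsmul_eq_over [IsAlgClosed L] (z : Pic0 L (C.curve L)) {n : ℕ} (hn : 0 < n) :
    ∃ w : Pic0 L (C.curve L), n • w = z := by
  have e : algOfTower (K := K) L L = ‹Algebra K L› := Algebra.algebra_ext _ _ fun _ => rfl
  have key : ∀ (a₀ : Algebra K L),
      (letI := a₀; ∀ z : Pic0 L (C.curve L), ∃ w : Pic0 L (C.curve L), n • w = z) →
      ∀ i : Algebra K L, a₀ = i →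
      letI := i
      ∀ z : Pic0 L (C.curve L), ∃ w : Pic0 L (C.curve L), n • w = z := by
    intro a₀ h i hi
    subst hi
    exact h
  exact key _ (fun z => (C.baseChange L).exists_nsmul_eq z hn) _ e z

end CurveData

end Fermat.Agent.Row27

end
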