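import Mathlib.AlgebraicGeometry.ResidueField
import Mathlib.Algebra.TrivSqZeroExt.Basic
import Mathlib.RingTheory.Derivation.Basic
import Mathlib.RingTheory.Spectrum.Prime.RingHom
import Mathlib.RingTheory.Unramified.Field
import Fermat.Prelude.Def_GoodReductionJacobian_RelativeGroupLawKernel

/-!
# Tangent vectors of a group scheme

Tangent vectors of a group scheme at points: multiplication by an invertible integer is injective
on them, so a derivation killing the field of `n x` kills the field of `x`.
-/

set_option autoImplicit false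

noncomputable section

universe u

open CategoryTheory AlgebraicGeometry NeronModelInfra GoodReductionJacobian

namespace Fermat.Agent.Row25.AV.Tangent

variable {K L : Type u} [CommRing K] [Field L] [Algebra K L]

section Base

variable (K L) (M : Type u) [AddCommGroup M] [Module L M] [Module Lᵐᵒᵖ M] [IsCentralScalar L M]

/-- The structure map of the trivial square-zero extension of `L` by `M`. -/
def base : Spec (CommRingCat.of (TrivSqZeroExt L M)) ⟶ Spec (CommRingCat.of K) :=
  Spec.map (CommRingCat.ofHom ((TrivSqZeroExt.inlHom L M).comp (algebraMap K L)))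

/-- The structure map of `L`. -/
def base₀ : Spec (CommRingCat.of L) ⟶ Spec (CommRingCat.of K) :=
  Spec.map (CommRingCat.ofHom (algebraMap K L))

end Base

variable {A : Scheme.{u}} {f : A ⟶ Spec (CommRingCat.of K)} (G : RelativeGroupLaw K f)
variable {M N P : Type u} [AddCommGroup M] [Module L M] [Module Lᵐᵒᵖ M] [IsCentralScalar L M]
  [AddCommGroup N] [Module L N] [Module Lᵐᵒᵖ N] [IsCentralScalar L N]
  [AddCommGroup P] [Module L P] [Module Lᵐᵒᵖ P] [IsCentralScalar L P]

theorem specMap_base {R : Type u} [CommRing R] {S : Type u} [CommRing S] (φ : R →+* S)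
    (a : K →+* R) (b : K →+* S) (h : φ.comp a = b) :
    Spec.map (CommRingCat.ofHom φ) ≫ Spec.map (CommRingCat.ofHom a) =
      Spec.map (CommRingCat.ofHom b) := by
  rw [← Spec.map_comp, ← h]
  rfl

theorem map_comp_base (a : M →ₗ[L] N) :
    Spec.map (CommRingCat.ofHom (TrivSqZeroExt.map a).toRingHom) ≫ base K L M = base K L N :=
  specMap_base _ _ _ (RingHom.ext fun k => TrivSqZeroExt.map_inl a (algebraMap K L k))

/-- Functoriality in the module. -/
def lift (a : M →ₗ[L] N) (v : SchemeHomOver (base K L M) f) : SchemeHomOver (base K L N) f :=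
  schemeHomOverComp (Spec.map (CommRingCat.ofHom (TrivSqZeroExt.map a).toRingHom))
    (map_comp_base a) v

theorem lift_lift (a : M →ₗ[L] N) (b : N →ₗ[L] P) (v : SchemeHomOver (base K L M) f) :
    lift b (lift a v) = lift (b ∘ₗ a) v := by
  refine Subtype.ext ?_
  show Spec.map _ ≫ Spec.map _ ≫ v.1 = Spec.map _ ≫ v.1
  rw [← Category.assoc, ← Spec.map_comp, TrivSqZeroExt.map_comp_map]
  rfl

theorem lift_id (v : SchemeHomOver (base K L M) f) : lift LinearMap.id v = v := by
  refine Subtype.ext ?_
  show Spec.map _ ≫ v.1 = v.1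
  rw [TrivSqZeroExt.map_id]
  show Spec.map (𝟙 _) ≫ v.1 = v.1
  rw [Spec.map_id, Category.id_comp]

theorem lift_mul (a : M →ₗ[L] N) (v w : SchemeHomOver (base K L M) f) :
    lift a (G.mul (base K L M) v w) = G.mul (base K L N) (lift a v) (lift a w) :=
  G.mul_natural _ _ _ _ v w

theorem lift_one (a : M →ₗ[L] N) : lift a (G.one (base K L M)) = G.one (base K L N) :=
  G.one_natural _ _ _ _

theorem fst_comp_base :
    Spec.map (CommRingCat.ofHom (TrivSqZeroExt.fstHom L L M).toRingHom) ≫ base K L M =
      base₀ K L :=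
  specMap_base _ _ _ (RingHom.ext fun _ => rfl)

/-- Reduction to the point underneath. -/
def red (v : SchemeHomOver (base K L M) f) : SchemeHomOver (base₀ K L) f :=
  schemeHomOverComp (Spec.map (CommRingCat.ofHom (TrivSqZeroExt.fstHom L L M).toRingHom))
    fst_comp_base v

theorem inl_comp_base :
    Spec.map (CommRingCat.ofHom (TrivSqZeroExt.inlHom L M)) ≫ base₀ K L = base K L M :=
  specMap_base _ _ _ rfl

/-- A point as a constant point of the extension. -/
def const (x : SchemeHomOver (base₀ K L) f) : SchemeHomOver (base K L M) f :=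
  schemeHomOverComp (Spec.map (CommRingCat.ofHom (TrivSqZeroExt.inlHom L M))) inl_comp_base x

theorem lift_zero (v : SchemeHomOver (base K L M) f) :
    lift (0 : M →ₗ[L] N) v = const (red v) := by
  refine Subtype.ext ?_
  show Spec.map _ ≫ v.1 = Spec.map _ ≫ Spec.map _ ≫ v.1
  rw [← Category.assoc, ← Spec.map_comp, ← CommRingCat.ofHom_comp]
  congr 3
  refine RingHom.ext fun x => TrivSqZeroExt.ext ?_ ?_
  · exact TrivSqZeroExt.fst_map _ x
  · exact TrivSqZeroExt.snd_map _ x

theorem lift_zero_of_red {v : SchemeHomOver (base K L M) f} (hv : red v = G.one (base₀ K L)) :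
    lift (0 : M →ₗ[L] N) v = G.one (base K L N) := by
  rw [lift_zero, hv]
  exact G.one_natural _ _ _ _

theorem range_le_of_mem {R : Type u} [CommRing R] (π : R →+* L) (hπ : Function.Surjective π)
    (hnil : RingHom.ker π ≤ nilradical R) (v : Spec (CommRingCat.of R) ⟶ A)
    (U : A.Opens) (hU : Set.range (Spec.map (CommRingCat.ofHom π) ≫ v).base ⊆ U) :
    Set.range v.base ⊆ U := by
  rintro _ ⟨p, rfl⟩
  let p' : PrimeSpectrum R := p
  have hp : p' ∈ Set.range (PrimeSpectrum.comap π) := by
    rw [range_comap_of_surjective _ π hπ, PrimeSpectrum.mem_zeroLocus]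
    refine fun r hr => ?_
    have h := hnil hr
    rw [nilradical_eq_sInf] at h
    exact (Submodule.mem_sInf.mp h) p'.asIdeal p'.isPrime
  obtain ⟨q, hq⟩ := hp
  exact hU ⟨q, congrArg (fun z => v.base z) hq⟩

theorem ker_fstHom_le :
    RingHom.ker (TrivSqZeroExt.fstHom L L M).toRingHom ≤ nilradical (TrivSqZeroExt L M) := by
  intro x hx
  refine ⟨2, ?_⟩
  have hf : x.fst = 0 := hx
  have : x = TrivSqZeroExt.inr x.snd := TrivSqZeroExt.ext (by simp [hf]) (by simp)
  rw [this, sq, TrivSqZeroExt.inr_mul_inr]
  rfl

/-- A point over `L ⊕ (M × N)` is determined by its two projections. -/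
theorem ext_of_lift_fst_snd {v w : SchemeHomOver (base K L (M × N)) f}
    (h₁ : lift (LinearMap.fst L M N) v = lift (LinearMap.fst L M N) w)
    (h₂ : lift (LinearMap.snd L M N) v = lift (LinearMap.snd L M N) w) : v = w := by
  have hred : red v = red w := by
    have key : ∀ z : SchemeHomOver (base K L (M × N)) f,
        red z = red (lift (LinearMap.fst L M N) z) := by
      intro z
      refine Subtype.ext ?_
      show Spec.map _ ≫ z.1 = Spec.map _ ≫ Spec.map _ ≫ z.1
      rw [← Category.assoc, ← Spec.map_comp, ← CommRingCat.ofHom_comp]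
      congr 3
      exact RingHom.ext fun a => (TrivSqZeroExt.fst_map (LinearMap.fst L M N) a).symm
    rw [key v, key w, h₁]
  obtain ⟨U, hU, hpU, -⟩ := exists_isAffineOpen_mem_and_subset
    (x := (red v).1.base default) (U := ⊤) trivial
  have hsub : Set.range (red v).1.base ⊆ U := by
    rintro _ ⟨q, rfl⟩
    rwa [Subsingleton.elim q default]
  have hπ : Function.Surjective (TrivSqZeroExt.fstHom L L (M × N)).toRingHom :=
    fun l => ⟨TrivSqZeroExt.inl l, rfl⟩
  have hv : Set.range v.1.base ⊆ Set.range hU.fromSpec.base := by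
    rw [hU.range_fromSpec]; exact range_le_of_mem _ hπ ker_fstHom_le _ _ hsub
  have hw : Set.range w.1.base ⊆ Set.range hU.fromSpec.base := by
    rw [hU.range_fromSpec]; exact range_le_of_mem _ hπ ker_fstHom_le _ _ (by
      rw [hred] at hsub; exact hsub)
  obtain ⟨g, hg⟩ := Spec.map_surjective (IsOpenImmersion.lift hU.fromSpec v.1 hv)
  obtain ⟨g', hg'⟩ := Spec.map_surjective (IsOpenImmersion.lift hU.fromSpec w.1 hw)
  have ev : Spec.map g ≫ hU.fromSpec = v.1 := by rw [hg, IsOpenImmersion.lift_fac]
  have ew : Spec.map g' ≫ hU.fromSpec = w.1 := by rw [hg', IsOpenImmersion.lift_fac]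
  refine Subtype.ext ?_
  rw [← ev, ← ew]
  have e : ∀ (Q : Type u) [CommRing Q] (π : TrivSqZeroExt L (M × N) →+* Q),
      Spec.map (CommRingCat.ofHom π) ≫ v.1 = Spec.map (CommRingCat.ofHom π) ≫ w.1 →
      g ≫ CommRingCat.ofHom π = g' ≫ CommRingCat.ofHom π := by
    intro Q _ π h
    rw [← ev, ← ew, ← Category.assoc, ← Category.assoc, cancel_mono, ← Spec.map_comp,
      ← Spec.map_comp] at h
    exact Spec.map_injective h
  have e₁ := e _ (TrivSqZeroExt.map (LinearMap.fst L M N)).toRingHom (congrArg Subtype.val h₁)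
  have e₂ := e _ (TrivSqZeroExt.map (LinearMap.snd L M N)).toRingHom (congrArg Subtype.val h₂)
  congr 2
  refine CommRingCat.hom_ext (RingHom.ext fun a => ?_)
  have a₁ := congrArg (fun φ => φ.hom a) e₁
  have a₂ := congrArg (fun φ => φ.hom a) e₂
  change TrivSqZeroExt.map (LinearMap.fst L M N) (g.hom a) =
    TrivSqZeroExt.map (LinearMap.fst L M N) (g'.hom a) at a₁
  change TrivSqZeroExt.map (LinearMap.snd L M N) (g.hom a) =
    TrivSqZeroExt.map (LinearMap.snd L M N) (g'.hom a) at a₂
  refine TrivSqZeroExt.ext ?_ (Prod.ext ?_ ?_)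
  · simpa using congrArg TrivSqZeroExt.fst a₁
  · simpa using congrArg TrivSqZeroExt.snd a₁
  · simpa using congrArg TrivSqZeroExt.snd a₂

/-- On points lying over the origin the group law is addition in the module. -/
theorem mul_lift {v : SchemeHomOver (base K L L) f} (hv : red v = G.one (base₀ K L))
    (a b : L →ₗ[L] L) :
    G.mul (base K L L) (lift a v) (lift b v) = lift (a + b) v := by
  have h : lift (a.prod b) v = G.mul (base K L (L × L))
      (lift (LinearMap.inl L L L ∘ₗ a) v) (lift (LinearMap.inr L L L ∘ₗ b) v) := by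
    refine ext_of_lift_fst_snd ?_ ?_ <;> rw [lift_mul, lift_lift, lift_lift, lift_lift]
    · rw [LinearMap.fst_prod, ← LinearMap.comp_assoc, LinearMap.fst_comp_inl,
        LinearMap.id_comp, ← LinearMap.comp_assoc, LinearMap.fst_comp_inr, LinearMap.zero_comp,
        lift_zero_of_red G hv, G.mul_one]
    · rw [LinearMap.snd_prod, ← LinearMap.comp_assoc, LinearMap.snd_comp_inl,
        LinearMap.zero_comp, lift_zero_of_red G hv, ← LinearMap.comp_assoc,
        LinearMap.snd_comp_inr, LinearMap.id_comp, G.one_mul]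
  have h2 := congrArg (lift (LinearMap.coprod LinearMap.id LinearMap.id)) h
  rw [lift_mul, lift_lift, lift_lift, lift_lift, ← LinearMap.comp_assoc, LinearMap.coprod_inl,
    ← LinearMap.comp_assoc, LinearMap.coprod_inr, LinearMap.id_comp, LinearMap.id_comp] at h2
  exact h2.symm

theorem nsmul_eq_lift {v : SchemeHomOver (base K L L) f} (hv : red v = G.one (base₀ K L)) (n : ℕ) :
    G.nsmul (base K L L) n v = lift (n • LinearMap.id) v := by
  induction n with
  | zero => rw [zero_smul, lift_zero_of_red G hv]; rfl
  | succ n ih =>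
    rw [RelativeGroupLaw.nsmul_succ, ih]
    nth_rw 2 [← lift_id v]
    rw [mul_lift G hv, succ_nsmul]

/-- A point over the origin killed by an invertible integer is the origin. -/
theorem eq_one_of_nsmul_eq_one {v : SchemeHomOver (base K L L) f}
    (hv : red v = G.one (base₀ K L)) {n : ℕ} (hn : (n : L) ≠ 0)
    (h : G.nsmul (base K L L) n v = G.one (base K L L)) : v = G.one (base K L L) := by
  rw [nsmul_eq_lift G hv] at h
  have h2 := congrArg (lift ((n : L)⁻¹ • LinearMap.id)) h
  rw [lift_one, lift_lift] at h2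
  rw [← h2]
  conv_lhs => rw [← lift_id v]
  congr 1
  refine LinearMap.ext fun x => ?_
  simp [hn]

/-! ### Points over the origin through an affine chart -/

variable {U : A.Opens} (hU : IsAffineOpen U)

/-! ### Derivations and residue fields -/

/-- `a ↦ a + ε D a`. -/
def derivHom (D : Derivation K L L) : L →+* TrivSqZeroExt L L where
  toFun a := TrivSqZeroExt.inl a + TrivSqZeroExt.inr (D a)
  map_one' := by ext <;> simp
  map_mul' a b := by ext <;> simp [Derivation.leibniz]; ring
  map_zero' := by ext <;> simp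
  map_add' a b := by ext <;> simp

theorem derivHom_comp_base (D : Derivation K L L) :
    Spec.map (CommRingCat.ofHom (derivHom D)) ≫ base₀ K L = base K L L :=
  specMap_base _ _ _ (RingHom.ext fun k => by ext <;> simp [derivHom])

theorem nsmul_one_eq (G : RelativeGroupLaw K f) {T : Scheme.{u}}
    (t : T ⟶ Spec (CommRingCat.of K)) (hc : G.IsCommutative) (n : ℕ) (x y : SchemeHomOver t f) :
    G.nsmul t n (G.mul t x y) = G.mul t (G.nsmul t n x) (G.nsmul t n y) := by
  induction n with
  | zero => exact (G.one_mul t _).symm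
  | succ n ih =>
    simp only [RelativeGroupLaw.nsmul_succ, ih]
    rw [G.mul_assoc, G.mul_assoc]
    congr 1
    rw [← G.mul_assoc, hc.mul_comm t (G.nsmul t n y) x, G.mul_assoc]

/-- The moved point `x_D`. -/
def move (D : Derivation K L L) (x : SchemeHomOver (base₀ K L) f) :
    SchemeHomOver (base K L L) f :=
  schemeHomOverComp (Spec.map (CommRingCat.ofHom (derivHom D))) (derivHom_comp_base D) x

theorem red_move (D : Derivation K L L) (x : SchemeHomOver (base₀ K L) f) : red (move D x) = x := by
  refine Subtype.ext ?_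
  show Spec.map _ ≫ Spec.map _ ≫ x.1 = x.1
  rw [← Category.assoc, ← Spec.map_comp, ← CommRingCat.ofHom_comp,
    show (TrivSqZeroExt.fstHom L L L).toRingHom.comp (derivHom D) = RingHom.id L from
      RingHom.ext fun a => by simp [derivHom]]
  show Spec.map (𝟙 _) ≫ x.1 = x.1
  rw [Spec.map_id, Category.id_comp]

theorem red_const (x : SchemeHomOver (base₀ K L) f) : red (const (M := M) x) = x := by
  refine Subtype.ext ?_
  show Spec.map _ ≫ Spec.map _ ≫ x.1 = x.1
  rw [← Category.assoc, ← Spec.map_comp, ← CommRingCat.ofHom_comp,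
    show (TrivSqZeroExt.fstHom L L M).toRingHom.comp (TrivSqZeroExt.inlHom L M) = RingHom.id L from
      RingHom.ext fun _ => rfl]
  show Spec.map (𝟙 _) ≫ x.1 = x.1
  rw [Spec.map_id, Category.id_comp]

/-- A derivation fixing `n x` fixes `x`. -/
theorem move_eq_const (hc : G.IsCommutative) {n : ℕ} (hn : (n : L) ≠ 0) (D : Derivation K L L)
    (x : SchemeHomOver (base₀ K L) f)
    (h : move D (G.nsmul (base₀ K L) n x) = const (G.nsmul (base₀ K L) n x)) :
    move D x = const x := by
  let t := base K L L
  set y := move D x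
  set z := const (M := L) x
  have hn' : G.nsmul t n y = G.nsmul t n z :=
    ((G.nsmul_natural _ _ _ _ n x).symm.trans h).trans (G.nsmul_natural _ _ _ _ n x)
  set v := G.mul t y (G.inv t z) with hv
  have hvz : G.mul t v z = y := by rw [hv, G.mul_assoc, G.inv_mul_cancel, G.mul_one]
  have hcancel : ∀ {T : Scheme.{u}} (s : T ⟶ Spec (CommRingCat.of K)) (a b : SchemeHomOver s f),
      G.mul s a b = b → a = G.one s := fun s a b hab => by
    have := congrArg (fun c => G.mul s c (G.inv s b)) hab
    rwa [G.mul_assoc, G.mul_inv_cancel, G.mul_one] at this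
  have hred : red v = G.one (base₀ K L) := hcancel _ _ x (by
    have h2 := congrArg red hvz
    rw [show red (G.mul t v z) = G.mul (base₀ K L) (red v) (red z) from
      G.mul_natural _ _ _ _ v z, red_const, red_move] at h2
    exact h2)
  have hnv : G.nsmul t n v = G.one t := hcancel _ _ (G.nsmul t n z) (by
    rw [← nsmul_one_eq G t hc, hvz, hn'])
  rw [← hvz, eq_one_of_nsmul_eq_one G hred hn hnv]
  exact G.one_mul t z

/-- The field of definition of a point: the image of the residue field of its image. -/
def residueSubfield (x : SchemeHomOver (base₀ K L) f) : Subfield L :=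
  (Scheme.SpecToEquivOfField L A x.1).2.hom.fieldRange

theorem move_eq_const_iff (D : Derivation K L L) (x : SchemeHomOver (base₀ K L) f) :
    move D x = const x ↔ ∀ a ∈ residueSubfield x, D a = 0 := by
  set p := (Scheme.SpecToEquivOfField L A x.1).1 with hp
  set ι := (Scheme.SpecToEquivOfField L A x.1).2 with hι
  have hx : Spec.map ι ≫ A.fromSpecResidueField p = x.1 :=
    (Scheme.SpecToEquivOfField L A).left_inv x.1
  constructor
  · rintro h _ ⟨r, rfl⟩
    have h1 : Spec.map (CommRingCat.ofHom (derivHom D)) ≫ x.1 =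
        Spec.map (CommRingCat.ofHom (TrivSqZeroExt.inlHom L L)) ≫ x.1 := congrArg Subtype.val h
    rw [← hx, ← Category.assoc, ← Category.assoc, cancel_mono, ← Spec.map_comp,
      ← Spec.map_comp] at h1
    have h2 := congrArg (fun φ => (φ.hom r).snd) (Spec.map_injective h1)
    show D (ι.hom r) = 0
    simpa [derivHom] using h2
  · intro h
    refine Subtype.ext ?_
    show Spec.map _ ≫ x.1 = Spec.map _ ≫ x.1
    rw [← hx, ← Category.assoc, ← Category.assoc, ← Spec.map_comp, ← Spec.map_comp]
    congr 2
    refine CommRingCat.hom_ext (RingHom.ext fun r => ?_)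
    have h0 : D (ι.hom r) = 0 := h _ ⟨r, rfl⟩
    refine TrivSqZeroExt.ext ?_ ?_ <;> simp [derivHom, h0]

/-- A derivation killing the field of `n x` kills the field of `x`. -/
theorem derivation_eq_zero (hc : G.IsCommutative) {n : ℕ} (hn : (n : L) ≠ 0)
    (D : Derivation K L L) (x : SchemeHomOver (base₀ K L) f)
    (h : ∀ a ∈ residueSubfield (G.nsmul (base₀ K L) n x), D a = 0) :
    ∀ a ∈ residueSubfield x, D a = 0 :=
  (move_eq_const_iff D x).mp
    (move_eq_const G hc hn D x ((move_eq_const_iff D _).mpr h))

/-- `derivation_eq_zero` for an integer invertible in the base field. -/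
theorem derivation_eq_zero_of_base {K F : Type u} [Field K] [Field F] [Algebra K F]
    {A : Scheme.{u}} {f : A ⟶ Spec (CommRingCat.of K)} (G : RelativeGroupLaw K f)
    (hc : G.IsCommutative) {n : ℕ} (hn : (n : K) ≠ 0) (D : Derivation K F F)
    (x : SchemeHomOver (base₀ K F) f)
    (h : ∀ a ∈ residueSubfield (G.nsmul (base₀ K F) n x), D a = 0) :
    ∀ a ∈ residueSubfield x, D a = 0 :=
  derivation_eq_zero G hc (by simpa using (map_ne_zero (algebraMap K F)).mpr hn) D x h

section Unramified

variable {E : Type u} [Field E] [Algebra K E] [Algebra E L] [IsScalarTower K E L]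

end Unramified

end Fermat.Agent.Row25.AV.Tangent

end
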