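import Fermat.Agent.Row27.GenClass
import Fermat.Agent.Row27.Theta
import Fermat.Agent.Row27.SpecTheory.Main
import Mathlib.FieldTheory.IsAlgClosed.AlgebraicClosure
import Mathlib.RingTheory.Localization.Integral
import Fermat.Agent.AV.Instances

/-!
# Classes of degree zero are divisible

Over a field `Ω` of transcendence degree `g` the generic classes form one orbit stable under
multiplication by positive integers and under translation by constant classes; a class whose
multiple is constant is constant.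
-/

set_option autoImplicit false

noncomputable section

open AlgebraicCurve Module

namespace Fermat.Agent.Row27

universe u

variable {K : Type u} [Field K] [IsAlgClosed K] {C : CurveData K} {T : SpecTheory C}
variable {Ω : Type u} [Field Ω] [Algebra K Ω] [IsAlgClosed Ω] (Th : ThetaTheory C T)
include Th

/-- A generic class translated by a constant class is generic. -/
lemma ThetaTheory.isGen_add_pic (hg : 0 < C.g) {τ : Fin C.g → Ω}
    (hτ : IsTranscendenceBasis K τ) {x : Pic0 Ω (C.curve Ω)} (hx : Th.IsGen x)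
    (z : Pic0 K (C.curve K)) :
    Th.IsGen (x + T.pic (Spec.ofAlgHom (Algebra.ofId K Ω)) z) := by
  refine Th.isGen_of_forall hg hτ hx fun k _ ⟨y0, hy⟩ => ?_
  have e : T.pic (Spec.ofAlgHom (Algebra.ofId K Ω)) z =
      T.pic (Spec.ofAlgHom k.val) (T.pic (Spec.ofAlgHom (Algebra.ofId K k)) z) := by
    rw [T.pic_algHom_comp]
    congr 3
  have h : x = T.pic (Spec.ofAlgHom k.val) (y0 - T.pic (Spec.ofAlgHom (Algebra.ofId K k)) z) := by
    rw [map_sub, ← e, hy, add_sub_cancel_right]
  rw [h]
  exact Th.isConst_pic k.val _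

omit Th in
/-- **Classes of degree zero of a curve over an algebraically closed field are divisible.** -/
theorem CurveData.exists_nsmul_eq (C : CurveData K) (z : Pic0 K (C.curve K)) {n : ℕ}
    (hn : 0 < n) : ∃ w : Pic0 K (C.curve K), n • w = z := by
  obtain ⟨T⟩ : Nonempty (SpecTheory C) := ⟨specTheory C⟩
  let Th := thetaTheory C T
  rcases Nat.eq_zero_or_pos C.g with hg | hg
  · have hzero : ∀ x : Pic0 K (C.curve K), x = 0 := fun x => by
      obtain ⟨E, hE, hEd, rfl⟩ := C.exists_effective K x (d := 0) hg.le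
      rw [(C.rr K).eq_zero_of_nonneg_of_degree_le hE (by rw [hEd]; simp), map_zero]
    exact ⟨0, (hzero _).trans (hzero z).symm⟩
  let P := MvPolynomial (Fin C.g) K
  let F := FractionRing P
  let Ω := AlgebraicClosure F
  have h1 : IsTranscendenceBasis K (algebraMap P F ∘ MvPolynomial.X) := by
    have : Algebra.IsAlgebraic P F := IsLocalization.isAlgebraic F (nonZeroDivisors P)
    exact (IsTranscendenceBasis.mvPolynomial (Fin C.g) K).algebraMap_comp
  have hτ : IsTranscendenceBasis K (algebraMap F Ω ∘ (algebraMap P F ∘ MvPolynomial.X)) :=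
    h1.algebraMap_comp
  obtain ⟨j, hj⟩ := exists_tj (C := C)
  obtain ⟨Q, -, hx, -⟩ := Th.exists_isGen hg hj hτ
  obtain ⟨x, hxdef⟩ : ∃ x, x = C.cls Ω (∑ i, Finsupp.single (Q i) 1) := ⟨_, rfl⟩
  rw [← hxdef] at hx
  set ι := Spec.ofAlgHom (Algebra.ofId K Ω) with hι
  have hnx := Th.isGen_nsmul hg hτ hx hn
  obtain ⟨σ, hσ⟩ := Th.exists_act_eq hj hτ hnx (Th.isGen_add_pic hg hτ hnx z)
  have hw : n • (T.act σ x - x) = T.pic ι z := by
    rw [nsmul_sub, ← map_nsmul, hσ, add_sub_cancel_left]
  obtain ⟨w, hw'⟩ := Th.exists_eq_pic' (Algebra.ofId K Ω) hg hτ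
    (Th.isConst_of_nsmul _ hg hn (hw.symm ▸ Th.isConst_pic _ z))
  refine ⟨w, T.pic_injective (Algebra.ofId K Ω) ?_⟩
  rw [map_nsmul, hw', hw]

end Fermat.Agent.Row27

end
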